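import Fermat.Agent.S26.Top.Defs

/-! # S26 / M11 : Step A: `#A[n](K)` is the separable degree of `F / [n]^# F`. -/

set_option autoImplicit false

universe u

namespace Fermat.Agent.S26

open AlgebraicCurve IsLocalRing

namespace StepA

section fields

/-- additivity of the transcendence degree in a tower of fields (instances supplied by hand) -/
theorem trdeg_add_eq_field (K L E : Type u) [Field K] [Field L] [Field E] [Algebra K L] [Algebra L E]
    [Algebra K E] [IsScalarTower K L E] :
    Algebra.trdeg K L + Algebra.trdeg L E = Algebra.trdeg K E := by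
  have : FaithfulSMul K L :=
    (faithfulSMul_iff_algebraMap_injective K L).mpr (algebraMap K L).injective
  have : FaithfulSMul L E :=
    (faithfulSMul_iff_algebraMap_injective L E).mpr (algebraMap L E).injective
  exact trdeg_add_eq K L

variable {K E : Type u} [Field K] [Field E] [Algebra K E]

/-- `E₀ ≤ L₁` of the same finite transcendence degree: `L₁` is algebraic over `E₀`. -/
theorem isAlgebraic_of_trdeg_le (E₀ L₁ : IntermediateField K E) (h : E₀ ≤ L₁)
    (hfin : Algebra.trdeg K E₀ < Cardinal.aleph0)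
    (hle : Algebra.trdeg K L₁ ≤ Algebra.trdeg K E₀) (z : E) (hz : z ∈ L₁) : IsAlgebraic E₀ z := by
  let L' : IntermediateField E₀ E := IntermediateField.extendScalars h
  have h1 := trdeg_add_eq_field K E₀ L'
  let f : L' →ₐ[K] L₁ :=
    { toFun := fun w => ⟨w.1, (IntermediateField.mem_extendScalars h).mp w.2⟩
      map_one' := rfl
      map_mul' := fun _ _ => rfl
      map_zero' := rfl
      map_add' := fun _ _ => rfl
      commutes' := fun _ => rfl }
  have h2 : Algebra.trdeg K L' ≤ Algebra.trdeg K L₁ :=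
    trdeg_le_of_injective f (fun a b hab => Subtype.ext (congrArg (fun w : L₁ => (w : E)) hab))
  have h3 : Algebra.trdeg K E₀ + Algebra.trdeg E₀ L' = Algebra.trdeg K E₀ + 0 := by
    rw [add_zero]
    apply le_antisymm
    · rw [h1]; exact h2.trans hle
    · exact le_self_add
  have h4 : Algebra.trdeg E₀ L' = 0 := Cardinal.eq_of_add_eq_add_left h3 hfin
  have h5 : Algebra.IsAlgebraic E₀ L' := trdeg_eq_zero_iff.mp h4
  have h6 := h5.1 ⟨z, (IntermediateField.mem_extendScalars h).mpr hz⟩
  exact h6.algHom L'.val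

theorem isAlgebraic_of_mem_sup (E₀ L₁ L₂ : IntermediateField K E)
    (h₁ : ∀ z ∈ L₁, IsAlgebraic E₀ z) (h₂ : ∀ z ∈ L₂, IsAlgebraic E₀ z) :
    ∀ z ∈ L₁ ⊔ L₂, IsAlgebraic E₀ z := by
  let A : IntermediateField K E := (algebraicClosure E₀ E).restrictScalars K
  have h : L₁ ⊔ L₂ ≤ A := sup_le (fun z hz => mem_algebraicClosure_iff.mpr (h₁ z hz))
    (fun z hz => mem_algebraicClosure_iff.mpr (h₂ z hz))
  intro z hz
  exact mem_algebraicClosure_iff.mp (h hz)

theorem trdeg_mono {L₁ L₂ : IntermediateField K E} (h : L₁ ≤ L₂) :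
    Algebra.trdeg K L₁ ≤ Algebra.trdeg K L₂ :=
  trdeg_le_of_injective (IntermediateField.inclusion h) (IntermediateField.inclusion_injective h)

end fields

section CFgen

variable {K : Type u} [Field K] [IsAlgClosed K]
variable {Ω FC : Type u} [Field Ω] [Algebra K Ω] [Field FC] [Algebra K FC]

open TensorProduct in
/-- `Ω(C)` is generated by `Ω` and `FC`. -/
theorem fieldRange_inl_sup_inr :
    (CF.inl K Ω FC).fieldRange ⊔ (CF.inr K Ω FC).fieldRange = ⊤ := by
  rw [eq_top_iff]
  intro z _
  set S := (CF.inl K Ω FC).fieldRange ⊔ (CF.inr K Ω FC).fieldRange with hS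
  have key : ∀ a : Ω ⊗[K] FC, CF.ofTensor K Ω FC a ∈ S := by
    intro a
    induction a using TensorProduct.induction_on with
    | zero => rw [map_zero]; exact zero_mem _
    | tmul ω c =>
      rw [CF.ofTensor_tmul]
      apply mul_mem
      · exact (le_sup_left : (CF.inl K Ω FC).fieldRange ≤ S) ⟨ω, rfl⟩
      · exact (le_sup_right : (CF.inr K Ω FC).fieldRange ≤ S) ⟨c, rfl⟩
    | add a b ha hb => rw [map_add]; exact add_mem ha hb
  obtain ⟨a, b, -, rfl⟩ := IsFractionRing.div_surjective (A := Ω ⊗[K] FC) z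
  exact div_mem (key a) (key b)

end CFgen

end StepA

open StepA

variable {K : Type u} [Field K] [IsAlgClosed K] {F : Type u} [Field F] [Algebra K F] (M : AVModel K F)

/-- torsion points are `K`-rational, if `[n]` is dominant.  (If `t ∈ A(Ω)`, `n t = 0`, `dim t > 0`: take `η`
generic over `K(t)` (in `Frac (K(t) ⊗ F)`); `η` and `η + t` are generic, hence algebraic over
`K(nη) = K(n(η+t))`; so `t` is algebraic over `K(η)`: contradiction with independence.) -/
theorem torsion_rational (n : ℕ) (hn : M.IsGeneric (n • M.eta)) {Ω : Type u} [Field Ω] [Algebra K Ω]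
    (t : M.Pt Ω) (ht : n • t = 0) : ∃ t₀ : M.Pt K, M.map (Algebra.ofId K Ω) t₀ = t := by
  apply M.exists_of_dim_eq_zero
  set k := M.fd t with hk
  obtain ⟨t₁, ht₁⟩ := M.exists_descend t
  have hnt₁ : n • t₁ = 0 := by
    apply M.map_injective_field k.val
    rw [M.map_nsmul, ht₁, ht, M.map_zero]
  have hfd₁ : M.fd t₁ = ⊤ := by
    rw [eq_top_iff]
    intro z _
    have h1 : (z : Ω) ∈ M.fd (M.map k.val t₁) := by rw [ht₁]; exact z.2
    rw [M.fd_map] at h1
    obtain ⟨w, hw, hwz⟩ := (IntermediateField.mem_map _).mp h1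
    have : w = z := Subtype.ext hwz
    rwa [← this]
  -- the big field
  let E := CF K k F
  let ηE : M.Pt E := M.map (CF.inr K k F) M.eta
  let tE : M.Pt E := M.map (CF.inl K k F) t₁
  let x : M.Pt E := ηE + tE
  have hntE : n • tE = 0 := by
    change n • M.map (CF.inl K k F) t₁ = 0
    rw [← M.map_nsmul, hnt₁, M.map_zero]
  have hnx : n • x = n • ηE := by
    change n • (ηE + tE) = _
    rw [nsmul_add, hntE, add_zero]
  have hnη : n • ηE = M.map (CF.inr K k F) (n • M.eta) := (M.map_nsmul _ _ _).symm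
  let E₀ := M.fd (n • ηE)
  have hE₀ : Algebra.trdeg K E₀ = M.g := by
    rw [M.trdeg_fd, hnη, M.ctr_map_field, hn, M.dim_genPt]
  have hfin : Algebra.trdeg K E₀ < Cardinal.aleph0 := by rw [hE₀]; exact Cardinal.natCast_lt_aleph0
  have hle : ∀ y : M.Pt E, Algebra.trdeg K (M.fd y) ≤ Algebra.trdeg K E₀ := by
    intro y
    rw [hE₀, M.trdeg_fd]
    exact_mod_cast M.dim_le _
  have ha : ∀ z ∈ M.fd x, IsAlgebraic E₀ z :=
    isAlgebraic_of_trdeg_le E₀ (M.fd x) (by
      change M.fd (n • ηE) ≤ _
      rw [← hnx]; exact M.fd_nsmul_le n x) hfin (hle x)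
  have hb : ∀ z ∈ M.fd ηE, IsAlgebraic E₀ z :=
    isAlgebraic_of_trdeg_le E₀ (M.fd ηE) (M.fd_nsmul_le n ηE) hfin (hle ηE)
  have hc : M.fd tE ≤ M.fd x ⊔ M.fd ηE := by
    have : tE = x - ηE := by change tE = ηE + tE - ηE; abel
    rw [this]
    exact M.fd_sub_le x ηE
  have hd1 : M.fd tE = (CF.inl K k F).fieldRange := by
    change M.fd (M.map (CF.inl K k F) t₁) = _
    rw [M.fd_map, hfd₁, AlgHom.fieldRange_eq_map]
  have hd2 : M.fd ηE = (CF.inr K k F).fieldRange := by
    change M.fd (M.map (CF.inr K k F) M.eta) = _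
    rw [M.fd_eq_fieldRange _ (M.isGeneric_map_eta _), M.emb_map_eta]
  have htop : M.fd x ⊔ M.fd ηE = ⊤ := by
    rw [eq_top_iff, ← fieldRange_inl_sup_inr, ← hd1, ← hd2]
    exact sup_le hc le_sup_right
  have halg : Algebra.IsAlgebraic E₀ E :=
    ⟨fun z => isAlgebraic_of_mem_sup E₀ _ _ ha hb z (by rw [htop]; trivial)⟩
  have h1 := trdeg_add_eq_field K E₀ E
  have h0 : Algebra.trdeg E₀ E = 0 := trdeg_eq_zero
  rw [h0, add_zero, hE₀, trdeg_CF, M.trdeg_eq] at h1
  have h2 : Algebra.trdeg K k = 0 := by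
    have h3 : (M.g : Cardinal) + Algebra.trdeg K k = (M.g : Cardinal) + 0 := by
      rw [add_zero, add_comm]; exact h1.symm
    exact Cardinal.eq_of_add_eq_add_left h3 Cardinal.natCast_lt_aleph0
  rw [hk, M.trdeg_fd] at h2
  exact_mod_cast h2

namespace StepA

variable {M}

/-- `η` in `A(F̄)` -/
noncomputable def etaB (M : AVModel K F) : M.Pt (AlgebraicClosure F) :=
  M.map (IsScalarTower.toAlgHom K F (AlgebraicClosure F)) M.eta

/-- translating `η` by a rational point gives a generic point -/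
theorem isGeneric_etaB_add (x : M.Pt K) :
    M.IsGeneric (etaB M + M.map (Algebra.ofId K (AlgebraicClosure F)) x) := by
  set xb := M.map (Algebra.ofId K (AlgebraicClosure F)) x with hxb
  set y := etaB M + xb with hy
  rw [M.isGeneric_iff_dim]
  apply le_antisymm (M.dim_le _)
  have h1 : M.fd xb ≤ ⊥ := by
    have := M.fd_map_le (Algebra.ofId K (AlgebraicClosure F)) x
    refine this.trans ?_
    rintro _ ⟨c, rfl⟩
    exact IntermediateField.mem_bot.mpr ⟨c, rfl⟩
  have h2 : M.fd (etaB M) ≤ M.fd y := by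
    have : etaB M = y - xb := by rw [hy]; abel
    calc M.fd (etaB M) = M.fd (y - xb) := by rw [← this]
      _ ≤ M.fd y ⊔ M.fd xb := M.fd_sub_le y xb
      _ ≤ M.fd y := sup_le le_rfl (h1.trans bot_le)
  have h3 := trdeg_mono h2
  have h4 : M.dim (M.ctr (etaB M)) = M.g := M.isGeneric_iff_dim.mp (M.isGeneric_map_eta _)
  rw [M.trdeg_fd, M.trdeg_fd, h4] at h3
  exact_mod_cast h3

/-- a `K`-embedding `τ : F → F̄` with `n τ(η) = n η` is linear over `[n]^# F`. -/
theorem commutes_of_nsmul_eq (n : ℕ) (hn : M.IsGeneric (n • M.eta))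
    (τ : F →ₐ[K] AlgebraicClosure F) (h : n • M.map τ M.eta = n • etaB M)
    (e : (M.emb (n • M.eta) hn).fieldRange) :
    τ (e : F) = algebraMap (M.emb (n • M.eta) hn).fieldRange (AlgebraicClosure F) e := by
  obtain ⟨e, r, rfl⟩ := e
  have hmem : r ∈ M.O (M.ctr (n • M.eta)) := by rw [hn, M.O_genPt]; trivial
  have h1 : M.map τ (n • M.eta)
      = M.map (IsScalarTower.toAlgHom K F (AlgebraicClosure F)) (n • M.eta) := by
    rw [M.map_nsmul, M.map_nsmul]; exact h
  have h2 := M.ev_map τ (n • M.eta) r hmem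
  have h3 := M.ev_map (IsScalarTower.toAlgHom K F (AlgebraicClosure F)) (n • M.eta) r hmem
  rw [h1, h3] at h2
  exact h2.symm

/-- conversely -/
theorem nsmul_eq_of_commutes (n : ℕ) (hn : M.IsGeneric (n • M.eta))
    (τ : F →ₐ[K] AlgebraicClosure F)
    (h : ∀ e : (M.emb (n • M.eta) hn).fieldRange,
      τ (e : F) = algebraMap (M.emb (n • M.eta) hn).fieldRange (AlgebraicClosure F) e) :
    n • M.map τ M.eta = n • etaB M := by
  rw [etaB, ← M.map_nsmul, ← M.map_nsmul]
  apply M.pt_ext _ _ (by rw [M.ctr_map_field, M.ctr_map_field])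
  intro r _
  have hmem : r ∈ M.O (M.ctr (n • M.eta)) := by rw [hn, M.O_genPt]; trivial
  rw [M.ev_map _ _ r hmem, M.ev_map _ _ r hmem]
  exact h ⟨M.ev (n • M.eta) r, r, rfl⟩

/-- the embedding attached to a torsion point -/
noncomputable def embOf (n : ℕ) (hn : M.IsGeneric (n • M.eta)) (x : {x : M.Pt K // n • x = 0}) :
    F →ₐ[(M.emb (n • M.eta) hn).fieldRange] AlgebraicClosure F :=
  { (M.emb _ (isGeneric_etaB_add x.1)).toRingHom with
    commutes' := fun e => by
      apply commutes_of_nsmul_eq n hn (M.emb _ (isGeneric_etaB_add x.1))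
      rw [M.map_emb_eta, nsmul_add, ← M.map_nsmul, x.2, M.map_zero, add_zero] }

theorem embOf_apply (n : ℕ) (hn : M.IsGeneric (n • M.eta)) (x : {x : M.Pt K // n • x = 0}) (r : F) :
    embOf n hn x r = M.emb _ (isGeneric_etaB_add x.1) r := rfl

theorem embOf_bijective (n : ℕ) (hn : M.IsGeneric (n • M.eta)) :
    Function.Bijective (embOf (M := M) n hn) := by
  constructor
  · intro x x' hxx
    have h1 : M.emb _ (isGeneric_etaB_add x.1) = M.emb _ (isGeneric_etaB_add x'.1) := by
      ext r
      rw [← embOf_apply n hn, ← embOf_apply n hn, hxx]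
    have h2 := M.map_emb_eta _ (isGeneric_etaB_add x.1)
    rw [h1, M.map_emb_eta] at h2
    have h3 := add_left_cancel h2
    exact Subtype.ext (M.map_injective_field _ h3.symm)
  · intro σ
    let σK : F →ₐ[K] AlgebraicClosure F := σ.restrictScalars K
    set y := M.map σK M.eta with hy
    have hny : n • y = n • etaB M := nsmul_eq_of_commutes n hn σK (fun e => σ.commutes e)
    obtain ⟨t₀, ht₀⟩ := torsion_rational M n hn (y - etaB M) (by rw [nsmul_sub, hny, sub_self])
    have hnt₀ : n • t₀ = 0 := by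
      apply M.map_injective_field (Algebra.ofId K (AlgebraicClosure F))
      rw [M.map_nsmul, ht₀, nsmul_sub, hny, sub_self, M.map_zero]
    refine ⟨⟨t₀, hnt₀⟩, ?_⟩
    ext r
    rw [embOf_apply]
    have h1 : etaB M + M.map (Algebra.ofId K (AlgebraicClosure F)) t₀ = y := by rw [ht₀]; abel
    have h2 : ∀ (z : M.Pt (AlgebraicClosure F)) (hz : M.IsGeneric z), z = y → M.emb z hz r = σ r := by
      rintro z hz rfl
      have := M.emb_map_eta σK
      exact congrArg (fun f : F →ₐ[K] AlgebraicClosure F => f r) this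
    exact h2 _ _ h1

end StepA

/-- Step A. -/
theorem card_torsion_eq_finSepDegree (n : ℕ) (hn : M.IsGeneric (n • M.eta)) :
    Nat.card {x : M.Pt K // n • x = 0} = Field.finSepDegree (M.emb (n • M.eta) hn).fieldRange F :=
  Nat.card_eq_of_bijective _ (embOf_bijective n hn)

/-- final count, given `d(n) = n^(2g)`. -/
theorem card_torsion (n : ℕ) (hn : (n : K) ≠ 0) (hd : M.dn n = n ^ (2 * M.g)) :
    Nat.card {x : M.Pt K // n • x = 0} = n ^ (2 * M.g) := by
  have hn0 : n ≠ 0 := by rintro rfl; simp at hn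
  have hpos : 0 < n ^ (2 * M.g) := pow_pos (Nat.pos_of_ne_zero hn0) _
  unfold AVModel.dn at hd
  split_ifs at hd with hgen
  swap
  · omega
  rw [card_torsion_eq_finSepDegree M n hgen]
  set E' := (M.emb (n • M.eta) hgen).fieldRange with hE'
  have hfd : FiniteDimensional E' F := Module.finite_of_finrank_pos (by rw [hd]; exact hpos)
  have h1 := Field.finSepDegree_mul_finInsepDegree E' F
  obtain ⟨q, hq⟩ := ExpChar.exists K
  have hq' : ExpChar (separableClosure E' F) q :=
    expChar_of_injective_algebraMap (algebraMap K (separableClosure E' F)).injective q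
  obtain ⟨m, hm⟩ := IsPurelyInseparable.finrank_eq_pow (F := separableClosure E' F) F q
  have h2 : Field.finInsepDegree E' F = q ^ m := hm
  have h3 : Field.finInsepDegree E' F = 1 := by
    rw [h2]
    cases hq with
    | zero => simp
    | prime hprime =>
      rcases Nat.eq_zero_or_pos m with rfl | hmpos
      · simp
      · exfalso
        have h4 : q ∣ n ^ (2 * M.g) := by
          rw [← hd, ← h1, h2]
          exact Dvd.dvd.mul_left (dvd_pow_self q hmpos.ne') _
        have h5 : q ∣ n := hprime.dvd_of_dvd_pow h4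
        exact hn ((CharP.cast_eq_zero_iff K q n).mpr h5)
  rw [h3, mul_one] at h1
  rw [h1, hd]

end Fermat.Agent.S26
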