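import Fermat.Agent.S26.Sq.Abstract

/-! # S26 / M7 : the theorem of the square on a curve (Part III). -/

set_option autoImplicit false

universe u

namespace Fermat.Agent.S26

open AlgebraicCurve IsLocalRing

namespace AVModel

variable {K : Type u} [Field K] [IsAlgClosed K] {F : Type u} [Field F] [Algebra K F] (M : AVModel K F)

/-- a point of `A(K(V))` vanishing at `v₀` vanishes at the constant place `(v₀)_Ω` of `Ω(V)`. -/
theorem red_constPlace_map_inr {Ω FV : Type u} [Field Ω] [Algebra K Ω] [Field FV] [Algebra K FV]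
    [FF1 K FV] (v₀ : Place K FV) (β : M.Pt FV) (hβ : M.red v₀ β = 0) :
    M.red ((constPlace Ω v₀).restrictConst K) (M.map (CF.inr K Ω FV) β) = 0 := by
  refine M.red_map_eq_zero _ v₀ β hβ (CF.inr K Ω FV) (fun a ha => ?_) (fun a ha => ?_)
  · have : a ∈ traceFC (constPlace Ω v₀) := by rw [traceFC_constPlace]; exact ha
    exact this
  · have : (constPlace Ω v₀).ord (CF.inr K Ω FV a) = v₀.ord a := ord_constPlace_inr v₀ a
    rw [Sq.ord_restrictConst, this]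
    exact ha

/-- THEOREM OF THE SQUARE ON `C`.  `Ψ = Φ₀(W)`, `Φ = Ψ(V)`, `𝕃 = Φ(C)`.
`x₁ = x₀ + β(v) + γ(w)`, `x₂ = x₀ + β(v)`, `x₃ = x₀ + γ(w)`, `x₄ = x₀`.  If `β(v₀) = 0`, `γ(w₀) = 0` then
`(x₁-α)^*D - (x₂-α)^*D - (x₃-α)^*D + (x₄-α)^*D` is a principal divisor of `C_Φ`.
Full proof: board topic S26, post "M7". -/
theorem square_principal (ζ : M.X) {Φ₀ FC FV FW : Type u} [Field Φ₀] [Algebra K Φ₀]
    [Field FC] [Algebra K FC] [FF1 K FC] [Field FV] [Algebra K FV] [FF1 K FV]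
    [Field FW] [Algebra K FW] [FF1 K FW]
    (x₀ : M.Pt Φ₀) (α : M.Pt FC) (β : M.Pt FV) (γ : M.Pt FW)
    (v₀ : Place K FV) (w₀ : Place K FW) (hβ : M.red v₀ β = 0) (hγ : M.red w₀ γ = 0) :
    let Ψ := CF K Φ₀ FW
    let Φ := CF K Ψ FV
    let X₀ : M.Pt Φ := M.bc Ψ Φ (M.bc Φ₀ Ψ x₀)
    let B : M.Pt Φ := M.map (CF.inr K Ψ FV) β
    let Γ : M.Pt Φ := M.bc Ψ Φ (M.map (CF.inr K Φ₀ FW) γ)
    ∃ f : CF K Φ FC, f ≠ 0 ∧ ∀ Q : Place Φ (CF K Φ FC),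
      Q.ord f = M.Dv ζ (M.zOf (X₀ + B + Γ) α) (Q.restrictConst K) - M.Dv ζ (M.zOf (X₀ + B) α) (Q.restrictConst K)
        - M.Dv ζ (M.zOf (X₀ + Γ) α) (Q.restrictConst K) + M.Dv ζ (M.zOf X₀ α) (Q.restrictConst K) := by
  intro Ψ Φ X₀ B Γ
  exact M.square_abstract ζ α (Φ₀ := Φ₀) (Ψ := Ψ) (Φ := Φ) (constPlace Ψ v₀) (constPlace Φ₀ w₀) X₀ B
    (M.map (CF.inr K Φ₀ FW) γ) (M.red_constPlace_map_inr v₀ β hβ) (M.red_constPlace_map_inr w₀ γ hγ)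

end AVModel

end Fermat.Agent.S26
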