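import Fermat.Agent.S26.Scheme.Main
import Fermat.Agent.S26.Top.Algebra
import Fermat.Agent.S26.StepA

/-! # S26 : final assembly. -/

set_option autoImplicit false

universe u

open CategoryTheory CategoryTheory.Limits AlgebraicGeometry NeronModelInfra GoodReductionJacobian
open GoodReductionJacobian.RelativeGroupLaw

namespace Fermat.Agent.S26

theorem final (K : Type u) [Field K] [IsAlgClosed K] {A : Scheme.{u}}
    (f : A ⟶ Spec (CommRingCat.of K)) (L : RelativeGroupLaw K f) (hc : L.IsCommutative)
    (hA : AbelianSchemePropertyBundle K f) (g : ℕ) [SmoothOfRelativeDimension g f] (n : ℕ)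
    (hn : (n : K) ≠ 0) :
    Nat.card {x : SchemeHomOver (𝟙 (Spec (CommRingCat.of K))) f //
        L.IsTorsionPoint (𝟙 (Spec (CommRingCat.of K))) n x} = n ^ (2 * g) := by
  obtain ⟨F, _, _, M, hg, e, e0, eadd⟩ := exists_avModel K f L hc hA g
  have hnsmul : ∀ (m : ℕ) (x : M.Pt K), e (m • x) = L.nsmul (𝟙 _) m (e x) := by
    intro m x
    induction m with
    | zero => simpa using e0
    | succ m ih => rw [succ_nsmul, eadd, ih]; rfl
  have key := card_torsion M n hn (dn_eq_pow M n)
  rw [hg] at key
  rw [← key]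
  refine (Nat.card_congr (e.subtypeEquiv fun x => ?_)).symm
  show n • x = 0 ↔ L.nsmul (𝟙 _) n (e x) = L.one (𝟙 _)
  rw [← hnsmul, ← e0]
  exact e.injective.eq_iff.symm

end Fermat.Agent.S26
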