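import Fermat.Agent.S26.Model.Div

/-! # S26 : specialisation of a principal combination of the divisors `(x_j - α)^* D` along a DVR `v` of `Φ`
(lemma (SP) of the board post "M7", for a general finite family). -/

set_option autoImplicit false

universe u

namespace Fermat.Agent.S26

open AlgebraicCurve IsLocalRing

theorem ord_prod_zpow {Ω 𝕃 : Type*} [Field Ω] [Field 𝕃] [Algebra Ω 𝕃] (P : Place Ω 𝕃) {J : Type*}
    (s : Finset J) (u : J → 𝕃) (hu : ∀ j ∈ s, u j ≠ 0) (n : J → ℤ) :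
    P.ord (∏ j ∈ s, u j ^ n j) = ∑ j ∈ s, n j * P.ord (u j) := by
  classical
  induction s using Finset.induction_on with
  | empty => simp
  | insert a s ha ih =>
    have h1 : ∀ j ∈ s, u j ≠ 0 := fun j hj => hu j (Finset.mem_insert_of_mem hj)
    rw [Finset.prod_insert ha, Finset.sum_insert ha,
      P.ord_mul (zpow_ne_zero _ (hu a (Finset.mem_insert_self a s)))
        (Finset.prod_ne_zero_iff.mpr fun j hj => zpow_ne_zero _ (h1 j hj)), P.ord_zpow, ih h1]

theorem finsum_add_sum_mul {α J : Type*} [Fintype J] (A : α → ℤ) (D : J → α → ℤ) (n : J → ℤ)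
    (hA : (Function.support A).Finite) (hD : ∀ j, (Function.support (D j)).Finite) :
    ∑ᶠ a, (A a + ∑ j, n j * D j a) = ∑ᶠ a, A a + ∑ j, n j * ∑ᶠ a, D j a := by
  classical
  have hD' : ∀ j ∈ (Finset.univ : Finset J), (Function.support fun a => n j * D j a).Finite :=
    fun j _ => (hD j).subset fun a ha => right_ne_zero_of_mul ha
  have hS : (Function.support fun a => ∑ j, n j * D j a).Finite := by
    refine (Set.Finite.biUnion (Finset.univ : Finset J).finite_toSet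
      (fun j hj => hD' j hj)).subset (fun a ha => ?_)
    by_contra hcon
    apply ha
    refine Finset.sum_eq_zero fun j hj => ?_
    by_contra hne
    exact hcon (Set.mem_biUnion (Finset.mem_coe.mpr hj) hne)
  rw [finsum_add_distrib hA hS, finsum_sum_comm _ _ hD']
  congr 1
  exact Finset.sum_congr rfl fun j _ => (mul_finsum _ _).symm

variable {K : Type u} [Field K] [IsAlgClosed K]
variable {Φ FC : Type u} [Field Φ] [Algebra K Φ] [Field FC] [Algebra K FC]

/-- normalisation of a function to a Gauss unit (multiply by a power of a uniformiser of `v`) -/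
theorem exists_gaussUnit (v : Place K Φ) (f : CF K Φ FC) (hf : f ≠ 0) :
    ∃ f' : (gauss v FC).toValuationSubring, (gauss v FC).ord (f' : CF K Φ FC) = 0 ∧ f' ≠ 0 ∧
      gaussRed v FC f' ≠ 0 ∧ ∀ Q : Place Φ (CF K Φ FC), Q.ord (f' : CF K Φ FC) = Q.ord f := by
  obtain ⟨ϖ, hϖ⟩ := Fermat.Agent.S24.FF.exists_ord_eq_one v
  have hϖ0 : ϖ ≠ 0 := Fermat.Agent.S24.FF.ne_zero_of_ord_ne_zero v (by rw [hϖ]; exact one_ne_zero)
  have hϖ1 : algebraMap Φ (CF K Φ FC) ϖ ≠ 0 := by simpa using hϖ0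
  set G := gauss v FC with hG
  set m := G.ord f with hm
  set g : CF K Φ FC := f * algebraMap Φ (CF K Φ FC) ϖ ^ (-m) with hg
  have hg0 : g ≠ 0 := mul_ne_zero hf (zpow_ne_zero _ hϖ1)
  have hGϖ : G.ord (algebraMap Φ (CF K Φ FC) ϖ) = 1 := by rw [hG, (gaussData v FC).ord_inl, hϖ]
  have hord : G.ord g = 0 := by
    rw [hg, G.ord_mul hf (zpow_ne_zero _ hϖ1), G.ord_zpow, hGϖ]; omega
  have hmem : g ∈ G.toValuationSubring := Fermat.Agent.S24.FF.mem_of_ord_nonneg G hord.ge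
  have hmem' : g⁻¹ ∈ G.toValuationSubring :=
    Fermat.Agent.S24.FF.mem_of_ord_nonneg G (by rw [G.ord_inv, hord]; simp)
  refine ⟨⟨g, hmem⟩, hord, fun h => hg0 (congrArg Subtype.val h), ?_, fun Q => ?_⟩
  · intro h0
    have h1 : (⟨g, hmem⟩ : G.toValuationSubring) * ⟨g⁻¹, hmem'⟩ = 1 :=
      Subtype.ext (mul_inv_cancel₀ hg0)
    have h2 := congrArg (gaussRed v FC) h1
    rw [map_mul, h0, zero_mul, map_one] at h2
    exact zero_ne_one h2
  · show Q.ord g = _
    rw [hg, Q.ord_mul hf (zpow_ne_zero _ hϖ1), Q.ord_zpow, Fermat.Agent.S24.FF.ord_algebraMap]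
    ring

namespace AVModel

variable {F : Type u} [Field F] [Algebra K F] (M : AVModel K F)

/-- (SP) -/
theorem exists_specialise [FF1 K FC] (ζ : M.X) (v : Place K Φ) {J : Type} [Fintype J] (n : J → ℤ)
    (x : J → M.Pt Φ) (α : M.Pt FC) (f : CF K Φ FC) (hf : f ≠ 0) :
    ∃ f'' : CF K v.ResidueField FC, f'' ≠ 0 ∧ ∀ P : Place v.ResidueField (CF K v.ResidueField FC),
      ∑ᶠ Q : Place Φ (CF K Φ FC),
        (Q.ord f + ∑ j, n j * M.Dv ζ (M.zOf (x j) α) (Q.restrictConst K)) * imult v Q P =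
      P.ord f'' + ∑ j, n j * M.Dv ζ (M.zOf (M.red v (x j)) α) (P.restrictConst K) := by
  classical
  obtain ⟨f', hf'G, hf'0, hf'ρ, hf'Q⟩ := exists_gaussUnit v f hf
  choose u hu0 hu using fun j => M.Dv_specialise ζ v (x j) α
  refine ⟨gaussRed v FC f' * ∏ j, u j ^ n j,
    mul_ne_zero hf'ρ (Finset.prod_ne_zero_iff.mpr fun j _ => zpow_ne_zero _ (hu0 j)), fun P => ?_⟩
  have hfin0 : (Function.support fun Q : Place Φ (CF K Φ FC) => Q.ord f * imult v Q P).Finite :=
    (finite_ord_ne_zero (Ω := Φ) hf).subset fun Q hQ => left_ne_zero_of_mul hQ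
  have hfin : ∀ j, (Function.support fun Q : Place Φ (CF K Φ FC) =>
      M.Dv ζ (M.zOf (x j) α) (Q.restrictConst K) * imult v Q P).Finite := fun j =>
    (M.finite_Dv_ne_zero (Ω := Φ) ζ (M.zOf (x j) α)).subset fun Q hQ => left_ne_zero_of_mul hQ
  have e1 : ∀ Q : Place Φ (CF K Φ FC),
      (Q.ord f + ∑ j, n j * M.Dv ζ (M.zOf (x j) α) (Q.restrictConst K)) * imult v Q P =
      Q.ord f * imult v Q P +
        ∑ j, n j * (M.Dv ζ (M.zOf (x j) α) (Q.restrictConst K) * imult v Q P) := by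
    intro Q
    rw [add_mul, Finset.sum_mul]
    congr 1
    exact Finset.sum_congr rfl fun j _ => mul_assoc _ _ _
  have e2 : ∑ᶠ Q : Place Φ (CF K Φ FC), Q.ord f * imult v Q P = P.ord (gaussRed v FC f') := by
    rw [ord_gaussRed_eq_finsum v f' hf'G hf'0 P]
    exact finsum_congr fun Q => by rw [hf'Q]
  have e3 := finsum_add_sum_mul (fun Q : Place Φ (CF K Φ FC) => Q.ord f * imult v Q P)
    (fun j (Q : Place Φ (CF K Φ FC)) => M.Dv ζ (M.zOf (x j) α) (Q.restrictConst K) * imult v Q P)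
    n hfin0 hfin
  have e4 : P.ord (gaussRed v FC f' * ∏ j, u j ^ n j) =
      P.ord (gaussRed v FC f') + ∑ j, n j * P.ord (u j) := by
    rw [P.ord_mul hf'ρ (Finset.prod_ne_zero_iff.mpr fun j _ => zpow_ne_zero _ (hu0 j)),
      ord_prod_zpow P _ u (fun j _ => hu0 j) n]
  rw [finsum_congr e1, e3, e2, e4, add_assoc, ← Finset.sum_add_distrib]
  congr 1
  refine Finset.sum_congr rfl fun j _ => ?_
  rw [hu j P]
  ring

/-- (SP), in the form used for the cube identity. -/
theorem exists_specialise_principal [FF1 K FC] (ζ : M.X) (v : Place K Φ) {J : Type} [Fintype J]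
    (n : J → ℤ) (x : J → M.Pt Φ) (α : M.Pt FC) (f : CF K Φ FC) (hf : f ≠ 0)
    (hdiv : ∀ Q : Place Φ (CF K Φ FC),
      Q.ord f = ∑ j, n j * M.Dv ζ (M.zOf (x j) α) (Q.restrictConst K)) :
    ∃ f'' : CF K v.ResidueField FC, f'' ≠ 0 ∧ ∀ P : Place v.ResidueField (CF K v.ResidueField FC),
      P.ord f'' = ∑ j, n j * M.Dv ζ (M.zOf (M.red v (x j)) α) (P.restrictConst K) := by
  obtain ⟨g, hg0, hg⟩ := M.exists_specialise ζ v n x α f⁻¹ (inv_ne_zero hf)
  refine ⟨g⁻¹, inv_ne_zero hg0, fun P => ?_⟩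
  have h1 := hg P
  have h2 : (fun Q : Place Φ (CF K Φ FC) =>
      (Q.ord f⁻¹ + ∑ j, n j * M.Dv ζ (M.zOf (x j) α) (Q.restrictConst K)) * imult v Q P) =
      fun _ => 0 := by
    funext Q
    rw [Q.ord_inv, hdiv Q]; ring
  rw [h2, finsum_zero] at h1
  rw [P.ord_inv]
  omega

end AVModel

end Fermat.Agent.S26
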