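import Fermat.Agent.S26.Square
import Fermat.Agent.S26.Sq.LambdaArg
import Fermat.Agent.S26.Model.DvTransport
import Fermat.Agent.S26.Lam.Generic
import Fermat.Agent.S26.SpecPrincipal

/-! # S26 / M8 : from the theorem of the square to the cube identity for `q(α) = deg (η - α)^* D` (Part IV). -/

set_option autoImplicit false

universe u

namespace Fermat.Agent.S26

open AlgebraicCurve IsLocalRing

namespace AVModel

variable {K : Type u} [Field K] [IsAlgClosed K] {F : Type u} [Field F] [Algebra K F] (M : AVModel K F)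

/-- degree of `z^* D` on a curve with function field `κ` over `F` -/
noncomputable def degDv (ζ : M.X) {κ : Type u} [Field κ] [Algebra K κ] [Algebra F κ] [IsScalarTower K F κ]
    [FF1 F κ] (z : M.Pt κ) : ℤ := Divisor.degree (M.divOf (Ω := F) ζ z)

/-- (T) transport along an isomorphism of function fields over `F`. -/
theorem degDv_congr (ζ : M.X) {κ κ' : Type u} [Field κ] [Algebra K κ] [Algebra F κ] [IsScalarTower K F κ]
    [FF1 F κ] [Field κ'] [Algebra K κ'] [Algebra F κ'] [IsScalarTower K F κ'] [FF1 F κ']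
    (e : κ ≃ₐ[F] κ') (z : M.Pt κ) :
    M.degDv ζ (M.map (e.toAlgHom.restrictScalars K) z) = M.degDv ζ z :=
  M.degree_divOf_map ζ e z

/-- `q(α) = deg_F (η - α)^* D` on `C_F` -/
noncomputable def qD (ζ : M.X) {FC : Type u} [Field FC] [Algebra K FC] [FF1 K FC] (α : M.Pt FC) : ℤ :=
  M.degDv ζ (κ := CF K F FC) (M.zOf M.eta α)

/-- (M8b) the `λ`-argument, for an abstract function field `κ/F` with an embedding `ι : FC → κ`.
If `∑ⱼ nⱼ (η + ι εⱼ - α)^* D` is principal on `C_κ`, then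
`∑ⱼ nⱼ (deg (η - ι(α - εⱼ))^*D - deg (η + ι εⱼ)^* D) = 0` (degrees on `κ/F`).
Hypotheses: `α(c₀) = 0`; the points `η - ι(α - εⱼ)` and `η + ι εⱼ` of `A(κ)` are generic. -/
theorem lambda_argument (ζ : M.X) {FC κ : Type u} [Field FC] [Algebra K FC] [FF1 K FC]
    [Field κ] [Algebra K κ] [Algebra F κ] [IsScalarTower K F κ] [FF1 F κ] (ι : FC →ₐ[K] κ)
    (c₀ : Place K FC) (α : M.Pt FC) (hα : M.red c₀ α = 0)
    {J : Type} [Fintype J] (n : J → ℤ) (ε : J → M.Pt FC)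
    (hg1 : ∀ j, M.IsGeneric (M.bc F κ M.eta + M.map ι (ε j) - M.map ι α))
    (hg2 : ∀ j, M.IsGeneric (M.bc F κ M.eta + M.map ι (ε j)))
    (f : CF K κ FC) (hf : f ≠ 0)
    (hdiv : ∀ Q : Place κ (CF K κ FC),
      Q.ord f = ∑ j, n j * M.Dv ζ (M.zOf (M.bc F κ M.eta + M.map ι (ε j)) α) (Q.restrictConst K)) :
    ∑ j, n j * (M.degDv ζ (M.bc F κ M.eta + M.map ι (ε j) - M.map ι α)
      - M.degDv ζ (M.bc F κ M.eta + M.map ι (ε j))) = 0 :=
  LA.main M ζ ι c₀ α hα n ε hg1 hg2 f hf hdiv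

-- `isGeneric_eta_add` (genericity of translates of `η`) is proved in `Lam/Generic.lean`.

/-- the `λ`-argument transported to `Ψ = F(C)` -/
theorem cube_of_principal (ζ : M.X) {FC κ : Type u} [Field FC] [Algebra K FC] [FF1 K FC]
    [Field κ] [Algebra K κ] [Algebra F κ] [IsScalarTower K F κ] [FF1 F κ]
    (e : CF K F FC ≃ₐ[F] κ) (c₀ : Place K FC) (α : M.Pt FC) (hα : M.red c₀ α = 0)
    {J : Type} [Fintype J] (n : J → ℤ) (ε : J → M.Pt FC)
    (f : CF K κ FC) (hf : f ≠ 0)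
    (hdiv : ∀ Q : Place κ (CF K κ FC), Q.ord f = ∑ j, n j * M.Dv ζ (M.zOf (M.bc F κ M.eta +
      M.map ((e.toAlgHom.restrictScalars K).comp (CF.inr K F FC)) (ε j)) α) (Q.restrictConst K)) :
    ∑ j, n j * (M.qD ζ (α - ε j) - M.qD ζ (- ε j)) = 0 := by
  set eK : CF K F FC →ₐ[K] κ := e.toAlgHom.restrictScalars K with heK
  set ι : FC →ₐ[K] κ := eK.comp (CF.inr K F FC) with hι
  have hη : M.map eK (M.bc F (CF K F FC) M.eta) = M.bc F κ M.eta := by
    rw [bc, ← M.map_comp]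
    congr 1
    ext r
    exact e.commutes r
  have key : ∀ y : M.Pt FC, M.bc F κ M.eta + M.map ι y = M.map eK (M.zOf M.eta (-y)) := by
    intro y
    rw [zOf, M.map_sub, hη, M.map_neg, M.map_neg, sub_neg_eq_add, hι, M.map_comp]
  have hgen : ∀ y : M.Pt FC, M.IsGeneric (M.bc F κ M.eta + M.map ι y) := by
    intro y
    have h1 : M.bc F κ M.eta + M.map ι y =
        M.map eK (M.bc F (CF K F FC) M.eta + M.map (CF.inr K F FC) y) := by
      rw [M.map_add, hη, hι, M.map_comp]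
    rw [h1, IsGeneric, M.ctr_map_field]
    exact M.isGeneric_eta_add y
  have hsub : ∀ j, M.bc F κ M.eta + M.map ι (ε j) - M.map ι α = M.bc F κ M.eta + M.map ι (ε j - α) := by
    intro j
    rw [M.map_sub]; abel
  have h := M.lambda_argument ζ ι c₀ α hα n ε (fun j => by rw [hsub]; exact hgen _)
    (fun j => hgen _) f hf hdiv
  rw [← h]
  refine Finset.sum_congr rfl fun j _ => ?_
  rw [hsub, key, key, M.degDv_congr ζ e, M.degDv_congr ζ e, neg_sub]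
  rfl

section diag

variable {Ψ FC : Type u} [Field Ψ] [Algebra K Ψ] [Field FC] [Algebra K FC] [FF1 K FC]
  (ι₀ : FC →ₐ[K] Ψ)

/-- the DVR of `Ψ(C)` attached to the `Ψ`-rational point `ι₀` of `C`, as a place over `K` -/
noncomputable def diagV : Place K (CF K Ψ FC) := ((CPt.gen ι₀ : CPt K FC Ψ).place).restrictConst K

/-- `Ψ → O_v` -/
noncomputable def diagJ : Ψ →ₐ[K] (diagV ι₀).toValuationSubring where
  toFun ψ := ⟨algebraMap Ψ (CF K Ψ FC) ψ, (CPt.gen ι₀ : CPt K FC Ψ).place.algebraMap_mem' ψ⟩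
  map_one' := Subtype.ext (_root_.map_one _)
  map_mul' a b := Subtype.ext (_root_.map_mul _ a b)
  map_zero' := Subtype.ext (_root_.map_zero _)
  map_add' a b := Subtype.ext (_root_.map_add _ a b)
  commutes' a := Subtype.ext (IsScalarTower.algebraMap_apply K Ψ (CF K Ψ FC) a).symm

/-- `FC → O_v` -/
noncomputable def diagI : FC →ₐ[K] (diagV ι₀).toValuationSubring where
  toFun a := ⟨CF.inr K Ψ FC a, CPt.inr_mem_place_gen ι₀ a⟩
  map_one' := Subtype.ext (_root_.map_one _)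
  map_mul' a b := Subtype.ext (_root_.map_mul _ a b)
  map_zero' := Subtype.ext (_root_.map_zero _)
  map_add' a b := Subtype.ext (_root_.map_add _ a b)
  commutes' a := Subtype.ext ((CF.inr K Ψ FC).commutes a)

/-- `Ψ → κ(v)` -/
noncomputable def diagR : Ψ →ₐ[K] (diagV ι₀).ResidueField :=
  (IsScalarTower.toAlgHom K (diagV ι₀).toValuationSubring (diagV ι₀).ResidueField).comp (diagJ ι₀)

theorem diagR_bijective : Function.Bijective (diagR ι₀) :=
  (CPt.gen ι₀ : CPt K FC Ψ).bijective_algebraMap_residueField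

theorem diagR_comp : (IsScalarTower.toAlgHom K (diagV ι₀).toValuationSubring
    (diagV ι₀).ResidueField).comp (diagI ι₀) = (diagR ι₀).comp ι₀ := by
  ext a
  have h := (CPt.gen ι₀ : CPt K FC Ψ).residue_eq_algebraMap_eval
    ⟨CF.inr K Ψ FC a, CPt.inr_mem_place_gen ι₀ a⟩
  rw [CPt.eval_gen_inr] at h
  exact h

theorem red_diag_bc (y : M.Pt Ψ) :
    M.red (diagV ι₀) (M.bc Ψ (CF K Ψ FC) y) = M.map (diagR ι₀) y :=
  M.red_map_comp (diagV ι₀) (diagJ ι₀) y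

theorem red_diag_inr (β : M.Pt FC) :
    M.red (diagV ι₀) (M.map (CF.inr K Ψ FC) β) = M.map ((diagR ι₀).comp ι₀) β := by
  rw [← diagR_comp]
  exact M.red_map_comp (diagV ι₀) (diagI ι₀) β

end diag

/-- the four-term specialisation, generic in `Φ` -/
theorem specialise_four (ζ : M.X) {Φ FC : Type u} [Field Φ] [Algebra K Φ] [Field FC] [Algebra K FC]
    [FF1 K FC] (v : Place K Φ) (α : M.Pt FC) (x₁ x₂ x₃ x₄ : M.Pt Φ) (f : CF K Φ FC) (hf0 : f ≠ 0)
    (hf : ∀ Q : Place Φ (CF K Φ FC),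
      Q.ord f = M.Dv ζ (M.zOf x₁ α) (Q.restrictConst K) - M.Dv ζ (M.zOf x₂ α) (Q.restrictConst K)
        - M.Dv ζ (M.zOf x₃ α) (Q.restrictConst K) + M.Dv ζ (M.zOf x₄ α) (Q.restrictConst K)) :
    ∃ g : CF K v.ResidueField FC, g ≠ 0 ∧ ∀ P : Place v.ResidueField (CF K v.ResidueField FC),
      P.ord g = ∑ j : Fin 4, (![1, -1, -1, 1] : Fin 4 → ℤ) j *
        M.Dv ζ (M.zOf (M.red v ((![x₁, x₂, x₃, x₄] : Fin 4 → M.Pt Φ) j)) α) (P.restrictConst K) := by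
  apply M.exists_specialise_principal ζ v _ _ α f hf0
  intro Q
  rw [hf Q]
  simp only [Fin.sum_univ_four, Matrix.cons_val_zero, Matrix.cons_val_one, Matrix.cons_val]
  ring

set_option maxHeartbeats 1600000 in
/-- specialisation to the diagonal -/
theorem cube_aux (ζ : M.X) {Ψ FC : Type u} [Field Ψ] [Algebra K Ψ] [Algebra F Ψ] [IsScalarTower K F Ψ]
    [FF1 F Ψ] [Field FC] [Algebra K FC] [FF1 K FC] (ι₀ : FC →ₐ[K] Ψ) (α β γ : M.Pt FC)
    (f : CF K (CF K Ψ FC) FC) (hf0 : f ≠ 0)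
    (hf : ∀ Q : Place (CF K Ψ FC) (CF K (CF K Ψ FC) FC),
      Q.ord f = M.Dv ζ (M.zOf (M.bc Ψ (CF K Ψ FC) (M.bc F Ψ M.eta) + M.map (CF.inr K Ψ FC) β +
          M.bc Ψ (CF K Ψ FC) (M.map ι₀ γ)) α) (Q.restrictConst K)
        - M.Dv ζ (M.zOf (M.bc Ψ (CF K Ψ FC) (M.bc F Ψ M.eta) + M.map (CF.inr K Ψ FC) β) α)
          (Q.restrictConst K)
        - M.Dv ζ (M.zOf (M.bc Ψ (CF K Ψ FC) (M.bc F Ψ M.eta) + M.bc Ψ (CF K Ψ FC) (M.map ι₀ γ)) α)
          (Q.restrictConst K)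
        + M.Dv ζ (M.zOf (M.bc Ψ (CF K Ψ FC) (M.bc F Ψ M.eta)) α) (Q.restrictConst K)) :
    ∃ (κ : Type u) (_ : Field κ) (_ : Algebra K κ) (_ : Algebra F κ) (_ : IsScalarTower K F κ)
      (_ : FF1 F κ) (e : Ψ ≃ₐ[F] κ) (g : CF K κ FC), g ≠ 0 ∧ ∀ P : Place κ (CF K κ FC),
      P.ord g = ∑ j : Fin 4, (![1, -1, -1, 1] : Fin 4 → ℤ) j *
        M.Dv ζ (M.zOf (M.bc F κ M.eta + M.map ((e.toAlgHom.restrictScalars K).comp ι₀)
          ((![β + γ, β, γ, 0] : Fin 4 → M.Pt FC) j)) α) (P.restrictConst K) := by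
  let algF : Algebra F (diagV ι₀).ResidueField :=
    ((diagR ι₀).toRingHom.comp (algebraMap F Ψ)).toAlgebra
  have tower : IsScalarTower K F (diagV ι₀).ResidueField := IsScalarTower.of_algebraMap_eq fun x => by
    show algebraMap K (diagV ι₀).ResidueField x = diagR ι₀ (algebraMap F Ψ (algebraMap K F x))
    rw [← IsScalarTower.algebraMap_apply K F Ψ, AlgHom.commutes]
  let e : Ψ ≃ₐ[F] (diagV ι₀).ResidueField :=
    AlgEquiv.ofBijective { (diagR ι₀).toRingHom with commutes' := fun r => rfl } (diagR_bijective ι₀)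
  have ff1 : FF1 F (diagV ι₀).ResidueField :=
    ⟨(Algebra.EssFiniteType.iff_of_algEquiv e).mp FF1.essFiniteType,
      by rw [← e.trdeg_eq]; exact FF1.trdeg_eq_one⟩
  obtain ⟨g, hg0, hg⟩ := M.specialise_four ζ (diagV ι₀) α _ _ _ _ f hf0 hf
  refine ⟨(diagV ι₀).ResidueField, inferInstance, inferInstance, algF, tower, ff1, e, g, hg0,
    fun P => ?_⟩
  have hι : (e.toAlgHom.restrictScalars K).comp ι₀ = (diagR ι₀).comp ι₀ := rfl
  have hX₀ : M.red (diagV ι₀) (M.bc Ψ (CF K Ψ FC) (M.bc F Ψ M.eta)) =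
      M.bc F (diagV ι₀).ResidueField M.eta := by
    rw [M.red_diag_bc, bc, ← M.map_comp]
    rfl
  have hB : M.red (diagV ι₀) (M.map (CF.inr K Ψ FC) β) = M.map ((diagR ι₀).comp ι₀) β :=
    M.red_diag_inr ι₀ _
  have hΓ : M.red (diagV ι₀) (M.bc Ψ (CF K Ψ FC) (M.map ι₀ γ)) = M.map ((diagR ι₀).comp ι₀) γ := by
    rw [M.red_diag_bc, ← M.map_comp]
  have hred : ∀ j : Fin 4, M.red (diagV ι₀) ((![M.bc Ψ (CF K Ψ FC) (M.bc F Ψ M.eta) +
        M.map (CF.inr K Ψ FC) β + M.bc Ψ (CF K Ψ FC) (M.map ι₀ γ),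
      M.bc Ψ (CF K Ψ FC) (M.bc F Ψ M.eta) + M.map (CF.inr K Ψ FC) β,
      M.bc Ψ (CF K Ψ FC) (M.bc F Ψ M.eta) + M.bc Ψ (CF K Ψ FC) (M.map ι₀ γ),
      M.bc Ψ (CF K Ψ FC) (M.bc F Ψ M.eta)] : Fin 4 → M.Pt (CF K Ψ FC)) j) =
      M.bc F (diagV ι₀).ResidueField M.eta + M.map ((diagR ι₀).comp ι₀)
          ((![β + γ, β, γ, 0] : Fin 4 → M.Pt FC) j) := by
    intro j
    fin_cases j
    · show M.red (diagV ι₀) (_ + _ + _) = _ + M.map _ (β + γ)
      rw [M.red_add, M.red_add, hX₀, hB, hΓ, M.map_add, add_assoc]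
    · show M.red (diagV ι₀) (_ + _) = _ + M.map _ β
      rw [M.red_add, hX₀, hB]
    · show M.red (diagV ι₀) (_ + _) = _ + M.map _ γ
      rw [M.red_add, hX₀, hΓ]
    · show M.red (diagV ι₀) (M.bc Ψ (CF K Ψ FC) (M.bc F Ψ M.eta)) = _ + M.map _ 0
      rw [hX₀, M.map_zero, add_zero]
  refine (hg P).trans (Finset.sum_congr rfl fun j _ => ?_)
  rw [hred j]
  rfl

/-- (M8) THE CUBE IDENTITY for `q`. -/
theorem qD_cube (ζ : M.X) {FC : Type u} [Field FC] [Algebra K FC] [FF1 K FC] (c₀ : Place K FC)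
    (a₁ a₂ a₃ : M.Pt FC) (h₁ : M.red c₀ a₁ = 0) (h₂ : M.red c₀ a₂ = 0) (h₃ : M.red c₀ a₃ = 0) :
    M.qD ζ (a₁ + a₂ + a₃) - M.qD ζ (a₁ + a₂) - M.qD ζ (a₁ + a₃) - M.qD ζ (a₂ + a₃)
      + M.qD ζ a₁ + M.qD ζ a₂ + M.qD ζ a₃ - M.qD ζ (0 : M.Pt FC) = 0 := by
  obtain ⟨f, hf0, hf⟩ := M.square_principal ζ (Φ₀ := F) M.eta a₁ (-a₂) (-a₃) c₀ c₀
    (by rw [M.red_neg, h₂, neg_zero]) (by rw [M.red_neg, h₃, neg_zero])
  obtain ⟨κ, i1, i2, i3, i4, i5, e, g, hg0, hg⟩ :=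
    M.cube_aux ζ (CF.inr K F FC) a₁ (-a₂) (-a₃) f hf0 hf
  have hfin := M.cube_of_principal ζ e c₀ a₁ h₁ _ _ g hg0 hg
  simp only [Fin.sum_univ_four, Matrix.cons_val_zero, Matrix.cons_val_one, Matrix.cons_val] at hfin
  have e1 : a₁ - (-a₂ + -a₃) = a₁ + a₂ + a₃ := by abel
  have e2 : -(-a₂ + -a₃) = a₂ + a₃ := by abel
  have e3 : a₁ - -a₂ = a₁ + a₂ := by abel
  have e4 : a₁ - -a₃ = a₁ + a₃ := by abel
  rw [e1, e2, e3, e4, neg_neg, neg_neg, sub_zero, neg_zero] at hfin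
  linarith

end AVModel

end Fermat.Agent.S26
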